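/-
Herbrand quotients, elementary version (helper595, S55 class-field-theory build).

For a commutative group `A` with two endomorphisms `f g` such that `f ∘ g = 1 = g ∘ f`
(trivial compositions) we put `mhIdx f g = [ker f : im g]` (a natural number, `0` when
infinite).  The Herbrand quotient is `mhIdx f g / mhIdx g f`.  We prove

* `mhIdx_eq_of_finite` : for finite `A`, `mhIdx f g = mhIdx g f ≠ 0`;
* `exists_six_factors_mul`, `MHExact.*` : multiplicativity in short exact sequences together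
  with the two-out-of-three finiteness statements.

Every declaration has an additive twin (generated by `to_additive`): `hIdx`, `HFinite`,
`herbrandQ`, `HExact`, ...   Everything is Mathlib-only.
-/
import Mathlib

namespace Fermat.Agent.S55.H595

open Subgroup Function

variable {A B C : Type*} [CommGroup A] [CommGroup B] [CommGroup C]

/-- `mhIdx f g = [ker f : im g ∩ ker f]`; when `f ∘ g = 1` this is the order of
`ker f / im g` (`0` if infinite). -/
@[to_additive hIdx /-- `hIdx f g = [ker f : im g ∩ ker f]`; when `f ∘ g = 0` this is the order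
of `ker f / im g` (`0` if infinite). -/]
noncomputable def mhIdx (f g : A →* A) : ℕ := g.range.relIndex f.ker

/-- Both Herbrand indices are finite (i.e. nonzero as natural numbers). -/
@[to_additive HFinite /-- Both Herbrand indices are finite (i.e. nonzero as natural numbers). -/]
def MHFinite (f g : A →* A) : Prop := mhIdx f g ≠ 0 ∧ mhIdx g f ≠ 0

/-- The Herbrand quotient `[ker f : im g] / [ker g : im f]`. -/
@[to_additive herbrandQ /-- The Herbrand quotient `[ker f : im g] / [ker g : im f]`. -/]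
noncomputable def mherbrandQ (f g : A →* A) : ℚ := (mhIdx f g : ℚ) / (mhIdx g f : ℚ)

@[to_additive HFinite.symm]
lemma MHFinite.symm {f g : A →* A} (h : MHFinite f g) : MHFinite g f := ⟨h.2, h.1⟩

@[to_additive herbrandQ_ne_zero]
lemma mherbrandQ_ne_zero {f g : A →* A} (h : MHFinite f g) : mherbrandQ f g ≠ 0 := by
  unfold mherbrandQ
  exact div_ne_zero (Nat.cast_ne_zero.2 h.1) (Nat.cast_ne_zero.2 h.2)

@[to_additive herbrandQ_swap]
lemma mherbrandQ_swap (f g : A →* A) : mherbrandQ g f = (mherbrandQ f g)⁻¹ := by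
  unfold mherbrandQ; rw [inv_div]

/-! ### Finite groups -/

/-- For a finite abelian group the Herbrand quotient is `1`. -/
@[to_additive hIdx_eq_of_finite]
theorem mhIdx_eq_of_finite [Finite A] (f g : A →* A) (hfg : ∀ a, f (g a) = 1)
    (hgf : ∀ a, g (f a) = 1) : mhIdx f g = mhIdx g f ∧ mhIdx f g ≠ 0 := by
  have hgle : g.range ≤ f.ker := by
    rintro _ ⟨a, rfl⟩; exact hfg a
  have hfle : f.range ≤ g.ker := by
    rintro _ ⟨a, rfl⟩; exact hgf a
  have h1 : Nat.card g.range * mhIdx f g = Nat.card f.ker := by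
    unfold mhIdx
    have := relIndex_mul_relIndex (⊥ : Subgroup A) g.range f.ker bot_le hgle
    simpa [relIndex_bot_left] using this
  have h2 : Nat.card f.range * mhIdx g f = Nat.card g.ker := by
    unfold mhIdx
    have := relIndex_mul_relIndex (⊥ : Subgroup A) f.range g.ker bot_le hfle
    simpa [relIndex_bot_left] using this
  have h3 : Nat.card f.ker * Nat.card f.range = Nat.card A := by
    have := f.ker.card_mul_index
    rwa [index_ker] at this
  have h4 : Nat.card g.ker * Nat.card g.range = Nat.card A := by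
    have := g.ker.card_mul_index
    rwa [index_ker] at this
  have hfr : 0 < Nat.card f.range := Nat.card_pos
  have hgr : 0 < Nat.card g.range := Nat.card_pos
  have hfk : 0 < Nat.card f.ker := Nat.card_pos
  have key : (Nat.card g.range * Nat.card f.range) * mhIdx f g =
      (Nat.card g.range * Nat.card f.range) * mhIdx g f := by
    calc (Nat.card g.range * Nat.card f.range) * mhIdx f g
        = (Nat.card g.range * mhIdx f g) * Nat.card f.range := by
          rw [Nat.mul_assoc, Nat.mul_comm (Nat.card f.range), ← Nat.mul_assoc]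
      _ = Nat.card A := by rw [h1, h3]
      _ = (Nat.card f.range * mhIdx g f) * Nat.card g.range := by rw [h2, h4]
      _ = (Nat.card g.range * Nat.card f.range) * mhIdx g f := by
          rw [Nat.mul_comm, ← Nat.mul_assoc]
  refine ⟨Nat.eq_of_mul_eq_mul_left (Nat.mul_pos hgr hfr) key, ?_⟩
  intro h0
  rw [h0, Nat.mul_zero] at h1
  exact hfk.ne h1

@[to_additive hFinite_of_finite]
theorem mhFinite_of_finite [Finite A] (f g : A →* A) (hfg : ∀ a, f (g a) = 1)
    (hgf : ∀ a, g (f a) = 1) : MHFinite f g :=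
  ⟨(mhIdx_eq_of_finite f g hfg hgf).2, (mhIdx_eq_of_finite g f hgf hfg).2⟩

@[to_additive herbrandQ_eq_one_of_finite]
theorem mherbrandQ_eq_one_of_finite [Finite A] (f g : A →* A) (hfg : ∀ a, f (g a) = 1)
    (hgf : ∀ a, g (f a) = 1) : mherbrandQ f g = 1 := by
  unfold mherbrandQ
  rw [(mhIdx_eq_of_finite f g hfg hgf).1]
  exact div_self (Nat.cast_ne_zero.2 (mhIdx_eq_of_finite g f hgf hfg).2)

/-! ### Short exact sequences -/

section Exact

variable (i : A →* B) (p : B →* C) (fA gA : A →* A) (fB gB : B →* B) (fC gC : C →* C)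

/-- Transport of `mhIdx` of the sub-object to the ambient group. -/
@[to_additive hIdx_sub]
lemma mhIdx_sub (hi : Injective i) (hf : ∀ a, i (fA a) = fB (i a))
    (hg : ∀ a, i (gA a) = gB (i a)) :
    mhIdx fA gA = (i.range.map gB).relIndex (fB.ker ⊓ i.range) := by
  unfold mhIdx
  rw [← relIndex_map_map_of_injective gA.range fA.ker hi]
  congr 1
  · ext x
    constructor
    · rintro ⟨_, ⟨a, rfl⟩, rfl⟩
      exact ⟨i a, ⟨a, rfl⟩, (hg a).symm⟩
    · rintro ⟨_, ⟨a, rfl⟩, rfl⟩
      exact ⟨gA a, ⟨a, rfl⟩, hg a⟩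
  · ext x
    constructor
    · rintro ⟨a, ha, rfl⟩
      refine ⟨?_, ⟨a, rfl⟩⟩
      have ha' : fA a = 1 := ha
      show fB (i a) = 1
      rw [← hf, ha', map_one]
    · rintro ⟨hx, ⟨a, rfl⟩⟩
      refine ⟨a, ?_, rfl⟩
      have hx' : fB (i a) = 1 := hx
      show fA a = 1
      apply hi
      rw [hf, hx', map_one]

/-- Transport of `mhIdx` of the quotient object to the ambient group. -/
@[to_additive hIdx_quot]
lemma mhIdx_quot (hp : Surjective p) (hf : ∀ b, p (fB b) = fC (p b))
    (hg : ∀ b, p (gB b) = gC (p b)) (hpres : p.ker ≤ p.ker.comap fB) :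
    mhIdx fC gC = (gB.range ⊔ p.ker).relIndex (p.ker.comap fB) := by
  unfold mhIdx
  have h1 : gC.range = gB.range.map p := by
    ext x
    constructor
    · rintro ⟨c, rfl⟩
      obtain ⟨b, rfl⟩ := hp c
      exact ⟨gB b, ⟨b, rfl⟩, hg b⟩
    · rintro ⟨_, ⟨b, rfl⟩, rfl⟩
      exact ⟨p b, (hg b).symm⟩
  have h2 : fC.ker = (p.ker.comap fB).map p := by
    ext x
    constructor
    · intro hx
      obtain ⟨b, rfl⟩ := hp x
      refine ⟨b, ?_, rfl⟩
      have hx' : fC (p b) = 1 := hx
      show p (fB b) = 1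
      rw [hf, hx']
    · rintro ⟨b, hb, rfl⟩
      have hb' : p (fB b) = 1 := hb
      show fC (p b) = 1
      rw [← hf, hb']
  rw [h1, h2, relIndex_map_map, sup_eq_left.2 hpres]

/-- Index computation for a pair `(f, g)` of endomorphisms of `B` preserving a subgroup `A'`. -/
@[to_additive hIdx_main_aux]
lemma mhIdx_main_aux (A' : Subgroup B) (f g : B →* B) (hfg : ∀ b, f (g b) = 1)
    (hf : A' ≤ A'.comap f) (hg : A' ≤ A'.comap g) :
    ∃ w y : ℕ,
      (A'.map g).relIndex (f.ker ⊓ A') = (A'.map g).relIndex (A' ⊓ g.range) * w ∧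
      g.range.relIndex f.ker = w * y ∧
      (g.range ⊔ A').relIndex (A'.comap f) = (A'.map f).relIndex (A' ⊓ f.range) * y := by
  have hgZ : g.range ≤ f.ker := by rintro _ ⟨b, rfl⟩; exact hfg b
  refine ⟨(g.range ⊓ A').relIndex (f.ker ⊓ A'), (g.range ⊔ A').relIndex f.ker, ?_, ?_, ?_⟩
  · -- a = E_g * w
    have h1 : A'.map g ≤ g.range ⊓ A' := by
      rintro _ ⟨x, hx, rfl⟩
      exact ⟨⟨x, rfl⟩, hg hx⟩
    have h2 : g.range ⊓ A' ≤ f.ker ⊓ A' := inf_le_inf_right _ hgZ
    rw [inf_comm A' g.range]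
    exact (relIndex_mul_relIndex _ _ _ h1 h2).symm
  · -- b = w * y
    have h := relIndex_inf_mul_relIndex g.range (g.range ⊔ A') f.ker
    rw [inf_eq_left.2 (le_sup_left : g.range ≤ g.range ⊔ A')] at h
    rw [← h]
    congr 1
    -- modular law
    have hmod : (g.range ⊔ A') ⊓ f.ker = g.range ⊔ (A' ⊓ f.ker) := by
      apply le_antisymm
      · intro x hx
        have hx1 : x ∈ g.range ⊔ A' := hx.1
        have hx2 : x ∈ f.ker := hx.2
        rw [mem_sup] at hx1
        obtain ⟨u, hu, v, hv, rfl⟩ := hx1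
        rw [mem_sup]
        refine ⟨u, hu, v, ⟨hv, ?_⟩, rfl⟩
        have : v = u⁻¹ * (u * v) := by rw [inv_mul_cancel_left]
        rw [this]
        exact f.ker.mul_mem (f.ker.inv_mem (hgZ hu)) hx2
      · exact le_inf (sup_le_sup_left inf_le_left _) (sup_le hgZ inf_le_right)
    rw [hmod]
    rw [relIndex_sup_left (A' ⊓ f.ker) g.range, ← inf_relIndex_right g.range (A' ⊓ f.ker),
      ← inf_relIndex_right (g.range ⊓ A') (f.ker ⊓ A')]
    congr 1
    · apply le_antisymm
      · exact le_inf (le_inf inf_le_left (inf_le_right.trans inf_le_left))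
          (le_inf (inf_le_left.trans hgZ) (inf_le_right.trans inf_le_left))
      · exact le_inf (inf_le_left.trans inf_le_left) (le_inf (inf_le_left.trans inf_le_right)
          (inf_le_right.trans inf_le_left))
    · exact inf_comm _ _
  · -- c = E_f * y
    have hle1 : g.range ⊔ A' ≤ f.ker ⊔ A' := sup_le_sup_right hgZ _
    have hle2 : f.ker ⊔ A' ≤ A'.comap f := by
      refine sup_le ?_ hf
      intro x hx
      have hx' : f x = 1 := hx
      show f x ∈ A'
      rw [hx']; exact A'.one_mem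
    rw [← relIndex_mul_relIndex _ _ _ hle1 hle2, Nat.mul_comm]
    congr 1
    · -- [f⁻¹A' : ker f ⊔ A'] = E_f
      have : f.ker ⊔ A' = (A'.map f).comap f := by rw [comap_map_eq, sup_comm]
      rw [this, relIndex_comap, map_comap_eq, inf_comm]
    · -- [ker f ⊔ A' : im g ⊔ A'] = y
      have : f.ker ⊔ A' = (g.range ⊔ A') ⊔ f.ker := by
        rw [sup_comm, sup_assoc, sup_comm A' f.ker, ← sup_assoc, sup_eq_right.2 hgZ, sup_comm]
      rw [this]
      exact relIndex_sup_left f.ker (g.range ⊔ A')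

/-- **Core index computation** behind the multiplicativity of the Herbrand quotient.
All six Herbrand indices of a short exact sequence `1 → A → B → C → 1` (compatible with the
pairs of endomorphisms) are products of two out of six auxiliary indices. -/
@[to_additive exists_six_factors]
theorem exists_six_factors_mul (hi : Injective i) (hp : Surjective p) (hex : i.range = p.ker)
    (hfi : ∀ a, i (fA a) = fB (i a)) (hgi : ∀ a, i (gA a) = gB (i a))
    (hfp : ∀ b, p (fB b) = fC (p b)) (hgp : ∀ b, p (gB b) = gC (p b))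
    (hfg : ∀ b, fB (gB b) = 1) (hgf : ∀ b, gB (fB b) = 1) :
    ∃ Ef Eg w y w' y' : ℕ,
      mhIdx fA gA = Eg * w ∧ mhIdx fB gB = w * y ∧ mhIdx fC gC = Ef * y ∧
      mhIdx gA fA = Ef * w' ∧ mhIdx gB fB = w' * y' ∧ mhIdx gC fC = Eg * y' := by
  have hker : p.ker = i.range := hex.symm
  have hfpres : i.range ≤ i.range.comap fB := by
    rintro _ ⟨a, rfl⟩
    exact ⟨fA a, hfi a⟩
  have hgpres : i.range ≤ i.range.comap gB := by
    rintro _ ⟨a, rfl⟩
    exact ⟨gA a, hgi a⟩
  obtain ⟨w, y, h1, h2, h3⟩ := mhIdx_main_aux i.range fB gB hfg hfpres hgpres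
  obtain ⟨w', y', h1', h2', h3'⟩ := mhIdx_main_aux i.range gB fB hgf hgpres hfpres
  refine ⟨(i.range.map fB).relIndex (i.range ⊓ fB.range),
    (i.range.map gB).relIndex (i.range ⊓ gB.range), w, y, w', y', ?_, ?_, ?_, ?_, ?_, ?_⟩
  · rw [mhIdx_sub i fA gA fB gB hi hfi hgi]; exact h1
  · exact h2
  · rw [mhIdx_quot p fB gB fC gC hp hfp hgp (hker ▸ hfpres), hker]; exact h3
  · rw [mhIdx_sub i gA fA gB fB hi hgi hfi]; exact h1'
  · exact h2'
  · rw [mhIdx_quot p gB fB gC fC hp hgp hfp (hker ▸ hgpres), hker]; exact h3'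

/-- Hypotheses describing a short exact sequence `1 → A → B → C → 1` of commutative groups
with compatible pairs of endomorphisms. -/
@[to_additive HExact /-- Hypotheses describing a short exact sequence `0 → A → B → C → 0` of
abelian groups with compatible pairs of endomorphisms. -/]
def MHExact : Prop :=
  Injective i ∧ Surjective p ∧ i.range = p.ker ∧
    (∀ a, i (fA a) = fB (i a)) ∧ (∀ a, i (gA a) = gB (i a)) ∧
    (∀ b, p (fB b) = fC (p b)) ∧ (∀ b, p (gB b) = gC (p b)) ∧
    (∀ b, fB (gB b) = 1) ∧ (∀ b, gB (fB b) = 1)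

variable {i p fA gA fB gB fC gC}

@[to_additive HExact.six]
theorem MHExact.six (h : MHExact i p fA gA fB gB fC gC) :
    ∃ Ef Eg w y w' y' : ℕ,
      mhIdx fA gA = Eg * w ∧ mhIdx fB gB = w * y ∧ mhIdx fC gC = Ef * y ∧
      mhIdx gA fA = Ef * w' ∧ mhIdx gB fB = w' * y' ∧ mhIdx gC fC = Eg * y' :=
  exists_six_factors_mul i p fA gA fB gB fC gC h.1 h.2.1 h.2.2.1 h.2.2.2.1 h.2.2.2.2.1
    h.2.2.2.2.2.1 h.2.2.2.2.2.2.1 h.2.2.2.2.2.2.2.1 h.2.2.2.2.2.2.2.2

/-- Multiplicativity of Herbrand indices, unconditional form (`0` = infinite). -/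
@[to_additive HExact.hIdx_mul_eq]
theorem MHExact.mhIdx_mul_eq (h : MHExact i p fA gA fB gB fC gC) :
    mhIdx fB gB * (mhIdx gA fA * mhIdx gC fC) = mhIdx gB fB * (mhIdx fA gA * mhIdx fC gC) := by
  obtain ⟨Ef, Eg, w, y, w', y', h1, h2, h3, h4, h5, h6⟩ := h.six
  rw [h1, h2, h3, h4, h5, h6]
  simp only [Nat.mul_assoc, Nat.mul_comm, Nat.mul_left_comm]

@[to_additive HExact.hFinite_mid]
theorem MHExact.mhFinite_mid (h : MHExact i p fA gA fB gB fC gC) (hA : MHFinite fA gA)
    (hC : MHFinite fC gC) : MHFinite fB gB := by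
  obtain ⟨Ef, Eg, w, y, w', y', h1, h2, h3, h4, h5, h6⟩ := h.six
  obtain ⟨a1, a2⟩ := hA
  obtain ⟨c1, c2⟩ := hC
  rw [h1] at a1; rw [h4] at a2; rw [h3] at c1; rw [h6] at c2
  refine ⟨?_, ?_⟩
  · rw [h2]; exact Nat.mul_ne_zero (right_ne_zero_of_mul a1) (right_ne_zero_of_mul c1)
  · rw [h5]; exact Nat.mul_ne_zero (right_ne_zero_of_mul a2) (right_ne_zero_of_mul c2)

@[to_additive HExact.hFinite_right]
theorem MHExact.mhFinite_right (h : MHExact i p fA gA fB gB fC gC) (hA : MHFinite fA gA)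
    (hB : MHFinite fB gB) : MHFinite fC gC := by
  obtain ⟨Ef, Eg, w, y, w', y', h1, h2, h3, h4, h5, h6⟩ := h.six
  obtain ⟨a1, a2⟩ := hA
  obtain ⟨b1, b2⟩ := hB
  rw [h1] at a1; rw [h4] at a2; rw [h2] at b1; rw [h5] at b2
  refine ⟨?_, ?_⟩
  · rw [h3]; exact Nat.mul_ne_zero (left_ne_zero_of_mul a2) (right_ne_zero_of_mul b1)
  · rw [h6]; exact Nat.mul_ne_zero (left_ne_zero_of_mul a1) (right_ne_zero_of_mul b2)

@[to_additive HExact.hFinite_left]
theorem MHExact.mhFinite_left (h : MHExact i p fA gA fB gB fC gC) (hB : MHFinite fB gB)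
    (hC : MHFinite fC gC) : MHFinite fA gA := by
  obtain ⟨Ef, Eg, w, y, w', y', h1, h2, h3, h4, h5, h6⟩ := h.six
  obtain ⟨b1, b2⟩ := hB
  obtain ⟨c1, c2⟩ := hC
  rw [h2] at b1; rw [h5] at b2; rw [h3] at c1; rw [h6] at c2
  refine ⟨?_, ?_⟩
  · rw [h1]; exact Nat.mul_ne_zero (left_ne_zero_of_mul c2) (left_ne_zero_of_mul b1)
  · rw [h4]; exact Nat.mul_ne_zero (left_ne_zero_of_mul c1) (left_ne_zero_of_mul b2)

/-- **Multiplicativity of the Herbrand quotient.** -/
@[to_additive HExact.herbrandQ_mul]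
theorem MHExact.mherbrandQ_mul (h : MHExact i p fA gA fB gB fC gC) (hA : MHFinite fA gA)
    (hC : MHFinite fC gC) : mherbrandQ fB gB = mherbrandQ fA gA * mherbrandQ fC gC := by
  have hB := h.mhFinite_mid hA hC
  have key := h.mhIdx_mul_eq
  unfold mherbrandQ
  have a2 : (mhIdx gA fA : ℚ) ≠ 0 := Nat.cast_ne_zero.2 hA.2
  have b2 : (mhIdx gB fB : ℚ) ≠ 0 := Nat.cast_ne_zero.2 hB.2
  have c2 : (mhIdx gC fC : ℚ) ≠ 0 := Nat.cast_ne_zero.2 hC.2
  have key' : (mhIdx fB gB : ℚ) * (mhIdx gA fA * mhIdx gC fC) =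
      mhIdx gB fB * (mhIdx fA gA * mhIdx fC gC) := by exact_mod_cast key
  field_simp
  linear_combination key'

/-- If the sub-object is finite, the Herbrand quotients of `B` and `C` agree. -/
@[to_additive HExact.herbrandQ_eq_of_finite_left]
theorem MHExact.mherbrandQ_eq_of_finite_left [Finite A] (h : MHExact i p fA gA fB gB fC gC)
    (hC : MHFinite fC gC) : MHFinite fB gB ∧ mherbrandQ fB gB = mherbrandQ fC gC := by
  obtain ⟨hinj, hsurj, hex, hfi, hgi, hfp, hgp, hfg, hgf⟩ := id h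
  have hfgA : ∀ a, fA (gA a) = 1 := fun a => hinj (by rw [hfi, hgi, hfg, map_one])
  have hgfA : ∀ a, gA (fA a) = 1 := fun a => hinj (by rw [hgi, hfi, hgf, map_one])
  have hA := mhFinite_of_finite fA gA hfgA hgfA
  refine ⟨h.mhFinite_mid hA hC, ?_⟩
  rw [h.mherbrandQ_mul hA hC, mherbrandQ_eq_one_of_finite fA gA hfgA hgfA, one_mul]

/-- If the quotient object is finite, the Herbrand quotients of `A` and `B` agree. -/
@[to_additive HExact.herbrandQ_eq_of_finite_right]
theorem MHExact.mherbrandQ_eq_of_finite_right [Finite C] (h : MHExact i p fA gA fB gB fC gC)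
    (hA : MHFinite fA gA) : MHFinite fB gB ∧ mherbrandQ fB gB = mherbrandQ fA gA := by
  obtain ⟨hinj, hsurj, hex, hfi, hgi, hfp, hgp, hfg, hgf⟩ := id h
  have hfgC : ∀ c, fC (gC c) = 1 := fun c => by
    obtain ⟨b, rfl⟩ := hsurj c
    rw [← hgp, ← hfp, hfg, map_one]
  have hgfC : ∀ c, gC (fC c) = 1 := fun c => by
    obtain ⟨b, rfl⟩ := hsurj c
    rw [← hfp, ← hgp, hgf, map_one]
  have hC := mhFinite_of_finite fC gC hfgC hgfC
  refine ⟨h.mhFinite_mid hA hC, ?_⟩
  rw [h.mherbrandQ_mul hA hC, mherbrandQ_eq_one_of_finite fC gC hfgC hgfC, mul_one]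

end Exact

end Fermat.Agent.S55.H595
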