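/-
Relative Herbrand indices of stable subgroups (helper595, S55 class-field-theory build).

`mrhIdx f g U = [ker f ∩ U : g(U)]` for a subgroup `U` of an ambient commutative group `B`
with endomorphisms `f g`.  Additive twins: `rhIdx`, `RHFinite`, `rherbrandQ`, ...
-/
import Fermat.Agent.S55.H595.Herbrand

namespace Fermat.Agent.S55.H595

open Subgroup Function

variable {A B C : Type*} [CommGroup A] [CommGroup B] [CommGroup C]

/-- Relative Herbrand index of a subgroup `U` of `B` (meaningful when `U` is stable under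
`f` and `g`): `[ker f ∩ U : g(U)]`. -/
@[to_additive rhIdx /-- Relative Herbrand index of a subgroup `U` of `B` (meaningful when `U`
is stable under `f` and `g`): `[ker f ∩ U : g(U)]`. -/]
noncomputable def mrhIdx (f g : B →* B) (U : Subgroup B) : ℕ := (U.map g).relIndex (f.ker ⊓ U)

/-- Both relative Herbrand indices are finite. -/
@[to_additive RHFinite /-- Both relative Herbrand indices are finite. -/]
def MRHFinite (f g : B →* B) (U : Subgroup B) : Prop := mrhIdx f g U ≠ 0 ∧ mrhIdx g f U ≠ 0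

/-- The relative Herbrand quotient. -/
@[to_additive rherbrandQ /-- The relative Herbrand quotient. -/]
noncomputable def mrherbrandQ (f g : B →* B) (U : Subgroup B) : ℚ :=
  (mrhIdx f g U : ℚ) / (mrhIdx g f U : ℚ)

/-- Restriction of an endomorphism to a stable subgroup. -/
@[to_additive resHom /-- Restriction of an endomorphism to a stable subgroup. -/]
def mresHom (f : B →* B) (U : Subgroup B) (hU : U ≤ U.comap f) : U →* U :=
  (f.comp U.subtype).codRestrict U (fun x => hU x.2)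

@[to_additive (attr := simp) coe_resHom]
lemma coe_mresHom (f : B →* B) (U : Subgroup B) (hU : U ≤ U.comap f) (x : U) :
    (mresHom f U hU x : B) = f x := rfl

@[to_additive rhIdx_eq_hIdx]
lemma mrhIdx_eq_mhIdx (f g : B →* B) (U : Subgroup B) (hf : U ≤ U.comap f)
    (hg : U ≤ U.comap g) : mrhIdx f g U = mhIdx (mresHom f U hf) (mresHom g U hg) := by
  rw [mhIdx_sub U.subtype (mresHom f U hf) (mresHom g U hg) f g U.subtype_injective
    (fun _ => rfl) (fun _ => rfl)]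
  unfold mrhIdx
  rw [Subgroup.range_subtype]

@[to_additive rhIdx_top]
lemma mrhIdx_top (f g : B →* B) : mrhIdx f g ⊤ = mhIdx f g := by
  unfold mrhIdx mhIdx
  rw [inf_top_eq, ← MonoidHom.range_eq_map]

@[to_additive RHFinite_iff]
lemma MRHFinite_iff (f g : B →* B) (U : Subgroup B) (hf : U ≤ U.comap f)
    (hg : U ≤ U.comap g) : MRHFinite f g U ↔ MHFinite (mresHom f U hf) (mresHom g U hg) := by
  unfold MRHFinite MHFinite
  rw [mrhIdx_eq_mhIdx f g U hf hg, mrhIdx_eq_mhIdx g f U hg hf]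

@[to_additive rherbrandQ_eq]
lemma mrherbrandQ_eq (f g : B →* B) (U : Subgroup B) (hf : U ≤ U.comap f)
    (hg : U ≤ U.comap g) : mrherbrandQ f g U = mherbrandQ (mresHom f U hf) (mresHom g U hg) := by
  unfold mrherbrandQ mherbrandQ
  rw [mrhIdx_eq_mhIdx f g U hf hg, mrhIdx_eq_mhIdx g f U hg hf]

/-- **Relative exact sequence.**  `U ≤ B` stable under `f, g` with `f g = g f = 1` on `U`;
`φ : B → C` intertwines `(f, g)` with `(f', g')`.  Then `1 → ker φ ∩ U → U → φ(U) → 1` is an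
exact sequence of Herbrand pairs. -/
@[to_additive rh_exact]
theorem mrh_exact (f g : B →* B) (f' g' : C →* C) (φ : B →* C)
    (hφf : ∀ b, φ (f b) = f' (φ b)) (hφg : ∀ b, φ (g b) = g' (φ b))
    (U : Subgroup B) (hUf : U ≤ U.comap f) (hUg : U ≤ U.comap g)
    (hfg : ∀ b ∈ U, f (g b) = 1) (hgf : ∀ b ∈ U, g (f b) = 1) :
    ∃ Ef Eg w y w' y' : ℕ,
      mrhIdx f g (φ.ker ⊓ U) = Eg * w ∧ mrhIdx f g U = w * y ∧ mrhIdx f' g' (U.map φ) = Ef * y ∧
      mrhIdx g f (φ.ker ⊓ U) = Ef * w' ∧ mrhIdx g f U = w' * y' ∧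
      mrhIdx g' f' (U.map φ) = Eg * y' := by
  -- stability of the kernel part and of the image
  have hKf : φ.ker ⊓ U ≤ (φ.ker ⊓ U).comap f := by
    rintro x ⟨hx1, hx2⟩
    refine ⟨?_, hUf hx2⟩
    have hx1' : φ x = 1 := hx1
    show φ (f x) = 1
    rw [hφf, hx1', map_one]
  have hKg : φ.ker ⊓ U ≤ (φ.ker ⊓ U).comap g := by
    rintro x ⟨hx1, hx2⟩
    refine ⟨?_, hUg hx2⟩
    have hx1' : φ x = 1 := hx1
    show φ (g x) = 1
    rw [hφg, hx1', map_one]
  have hVf : U.map φ ≤ (U.map φ).comap f' := by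
    rintro _ ⟨x, hx, rfl⟩
    exact ⟨f x, hUf hx, hφf x⟩
  have hVg : U.map φ ≤ (U.map φ).comap g' := by
    rintro _ ⟨x, hx, rfl⟩
    exact ⟨g x, hUg hx, hφg x⟩
  -- the maps of the exact sequence
  let i : ↥(φ.ker ⊓ U) →* ↥U := Subgroup.inclusion inf_le_right
  let p : ↥U →* ↥(U.map φ) := (φ.comp U.subtype).codRestrict (U.map φ)
    (fun x => ⟨x, x.2, rfl⟩)
  have hi : Injective i := Subgroup.inclusion_injective _
  have hp : Surjective p := by
    rintro ⟨_, x, hx, rfl⟩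
    exact ⟨⟨x, hx⟩, rfl⟩
  have hex : i.range = p.ker := by
    ext x
    constructor
    · rintro ⟨⟨y, hy1, hy2⟩, rfl⟩
      rw [MonoidHom.mem_ker]
      apply Subtype.ext
      exact hy1
    · intro hx
      rw [MonoidHom.mem_ker] at hx
      have hx' : φ x = 1 := congrArg Subtype.val hx
      exact ⟨⟨x, hx', x.2⟩, rfl⟩
  have key := exists_six_factors_mul i p (mresHom f _ hKf) (mresHom g _ hKg)
    (mresHom f U hUf) (mresHom g U hUg) (mresHom f' _ hVf) (mresHom g' _ hVg) hi hp hex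
    (fun _ => rfl) (fun _ => rfl)
    (fun b => Subtype.ext (hφf b)) (fun b => Subtype.ext (hφg b))
    (fun b => Subtype.ext (hfg b b.2)) (fun b => Subtype.ext (hgf b b.2))
  rw [← mrhIdx_eq_mhIdx f g _ hKf hKg, ← mrhIdx_eq_mhIdx g f _ hKg hKf,
    ← mrhIdx_eq_mhIdx f g U hUf hUg, ← mrhIdx_eq_mhIdx g f U hUg hUf,
    ← mrhIdx_eq_mhIdx f' g' _ hVf hVg, ← mrhIdx_eq_mhIdx g' f' _ hVg hVf] at key
  exact key

/-- Relative version: finite kernel part. If `ker φ ∩ U` is finite then `U` and `φ(U)` have the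
same Herbrand indices ratio. -/
@[to_additive rh_of_finite_ker]
theorem mrh_of_finite_ker (f g : B →* B) (f' g' : C →* C) (φ : B →* C)
    (hφf : ∀ b, φ (f b) = f' (φ b)) (hφg : ∀ b, φ (g b) = g' (φ b))
    (U : Subgroup B) (hUf : U ≤ U.comap f) (hUg : U ≤ U.comap g)
    (hfg : ∀ b ∈ U, f (g b) = 1) (hgf : ∀ b ∈ U, g (f b) = 1)
    (hfin : Finite ↥(φ.ker ⊓ U)) :
    (MRHFinite f g U ↔ MRHFinite f' g' (U.map φ)) ∧
      mrhIdx f g U * mrhIdx g' f' (U.map φ) = mrhIdx g f U * mrhIdx f' g' (U.map φ) := by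
  obtain ⟨Ef, Eg, w, y, w', y', h1, h2, h3, h4, h5, h6⟩ :=
    mrh_exact f g f' g' φ hφf hφg U hUf hUg hfg hgf
  -- finiteness of the kernel part
  have hKf : φ.ker ⊓ U ≤ (φ.ker ⊓ U).comap f := by
    rintro x ⟨hx1, hx2⟩
    refine ⟨?_, hUf hx2⟩
    have hx1' : φ x = 1 := hx1
    show φ (f x) = 1
    rw [hφf, hx1', map_one]
  have hKg : φ.ker ⊓ U ≤ (φ.ker ⊓ U).comap g := by
    rintro x ⟨hx1, hx2⟩
    refine ⟨?_, hUg hx2⟩
    have hx1' : φ x = 1 := hx1
    show φ (g x) = 1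
    rw [hφg, hx1', map_one]
  have hK := mhIdx_eq_of_finite (mresHom f _ hKf) (mresHom g _ hKg)
    (fun b => Subtype.ext (hfg b b.2.2)) (fun b => Subtype.ext (hgf b b.2.2))
  rw [← mrhIdx_eq_mhIdx f g _ hKf hKg, ← mrhIdx_eq_mhIdx g f _ hKg hKf] at hK
  obtain ⟨hKeq, hKne⟩ := hK
  have hKne' : mrhIdx g f (φ.ker ⊓ U) ≠ 0 := hKeq ▸ hKne
  rw [h1] at hKeq hKne
  rw [h4] at hKeq hKne'
  have hEg : Eg ≠ 0 := left_ne_zero_of_mul hKne
  have hw : w ≠ 0 := right_ne_zero_of_mul hKne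
  have hEf : Ef ≠ 0 := left_ne_zero_of_mul hKne'
  have hw' : w' ≠ 0 := right_ne_zero_of_mul hKne'
  refine ⟨?_, ?_⟩
  · unfold MRHFinite
    rw [h2, h3, h5, h6]
    constructor
    · rintro ⟨a, b⟩
      exact ⟨Nat.mul_ne_zero hEf (right_ne_zero_of_mul a),
        Nat.mul_ne_zero hEg (right_ne_zero_of_mul b)⟩
    · rintro ⟨a, b⟩
      exact ⟨Nat.mul_ne_zero hw (right_ne_zero_of_mul a),
        Nat.mul_ne_zero hw' (right_ne_zero_of_mul b)⟩
  · rw [h2, h3, h5, h6]
    calc w * y * (Eg * y') = (Eg * w) * (y * y') := by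
          simp only [Nat.mul_comm, Nat.mul_left_comm]
      _ = (Ef * w') * (y * y') := by rw [hKeq]
      _ = w' * y' * (Ef * y) := by simp only [Nat.mul_comm, Nat.mul_left_comm]

/-- Relative version: finite index. If `U ≤ W` are stable with `[W : U]` finite, the Herbrand
index ratios of `U` and `W` agree. -/
@[to_additive rh_of_finite_index]
theorem mrh_of_finite_index (f g : B →* B) (U W : Subgroup B) (hUW : U ≤ W)
    (hidx : U.relIndex W ≠ 0)
    (hUf : U ≤ U.comap f) (hUg : U ≤ U.comap g) (hWf : W ≤ W.comap f) (hWg : W ≤ W.comap g)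
    (hfg : ∀ b ∈ W, f (g b) = 1) (hgf : ∀ b ∈ W, g (f b) = 1) :
    (MRHFinite f g U ↔ MRHFinite f g W) ∧
      mrhIdx f g U * mrhIdx g f W = mrhIdx g f U * mrhIdx f g W := by
  -- exact sequence 1 → U → W → W/U → 1
  let U' : Subgroup ↥W := U.subgroupOf W
  let i : ↥U →* ↥W := Subgroup.inclusion hUW
  let p : ↥W →* ↥W ⧸ U' := QuotientGroup.mk' U'
  have hU'f : U' ≤ U'.comap (mresHom f W hWf) := fun x hx => hUf hx
  have hU'g : U' ≤ U'.comap (mresHom g W hWg) := fun x hx => hUg hx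
  let fC : ↥W ⧸ U' →* ↥W ⧸ U' := QuotientGroup.map U' U' (mresHom f W hWf) hU'f
  let gC : ↥W ⧸ U' →* ↥W ⧸ U' := QuotientGroup.map U' U' (mresHom g W hWg) hU'g
  have hi : Injective i := Subgroup.inclusion_injective _
  have hp : Surjective p := QuotientGroup.mk'_surjective U'
  have hex : i.range = p.ker := by
    rw [QuotientGroup.ker_mk']
    ext x
    constructor
    · rintro ⟨y, rfl⟩
      exact y.2
    · intro hx
      exact ⟨⟨x, hx⟩, rfl⟩
  have hfinC : Finite (↥W ⧸ U') := by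
    have : U'.index ≠ 0 := hidx
    haveI : U'.FiniteIndex := ⟨this⟩
    exact Subgroup.finite_quotient_of_finiteIndex
  obtain ⟨Ef, Eg, w, y, w', y', h1, h2, h3, h4, h5, h6⟩ :=
    exists_six_factors_mul i p (mresHom f U hUf) (mresHom g U hUg)
      (mresHom f W hWf) (mresHom g W hWg) fC gC hi hp hex
      (fun _ => rfl) (fun _ => rfl) (fun _ => rfl) (fun _ => rfl)
      (fun b => Subtype.ext (hfg b b.2)) (fun b => Subtype.ext (hgf b b.2))
  have hfgC : ∀ c, fC (gC c) = 1 := by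
    intro c
    obtain ⟨b, rfl⟩ := hp c
    show p (mresHom f W hWf (mresHom g W hWg b)) = 1
    rw [show mresHom f W hWf (mresHom g W hWg b) = 1 from Subtype.ext (hfg b b.2), map_one]
  have hgfC : ∀ c, gC (fC c) = 1 := by
    intro c
    obtain ⟨b, rfl⟩ := hp c
    show p (mresHom g W hWg (mresHom f W hWf b)) = 1
    rw [show mresHom g W hWg (mresHom f W hWf b) = 1 from Subtype.ext (hgf b b.2), map_one]
  obtain ⟨hCeq, hCne⟩ := mhIdx_eq_of_finite fC gC hfgC hgfC
  have hCne' : mhIdx gC fC ≠ 0 := hCeq ▸ hCne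
  rw [← mrhIdx_eq_mhIdx f g U hUf hUg] at h1
  rw [← mrhIdx_eq_mhIdx g f U hUg hUf] at h4
  rw [← mrhIdx_eq_mhIdx f g W hWf hWg] at h2
  rw [← mrhIdx_eq_mhIdx g f W hWg hWf] at h5
  rw [h3] at hCeq hCne
  rw [h6] at hCeq hCne'
  have hEf : Ef ≠ 0 := left_ne_zero_of_mul hCne
  have hy : y ≠ 0 := right_ne_zero_of_mul hCne
  have hEg : Eg ≠ 0 := left_ne_zero_of_mul hCne'
  have hy' : y' ≠ 0 := right_ne_zero_of_mul hCne'
  refine ⟨?_, ?_⟩
  · unfold MRHFinite
    rw [h1, h2, h4, h5]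
    constructor
    · rintro ⟨a, b⟩
      exact ⟨Nat.mul_ne_zero (right_ne_zero_of_mul a) hy,
        Nat.mul_ne_zero (right_ne_zero_of_mul b) hy'⟩
    · rintro ⟨a, b⟩
      exact ⟨Nat.mul_ne_zero hEg (left_ne_zero_of_mul a),
        Nat.mul_ne_zero hEf (left_ne_zero_of_mul b)⟩
  · rw [h1, h2, h4, h5]
    calc Eg * w * (w' * y') = (Eg * y') * (w * w') := by
          simp only [Nat.mul_comm, Nat.mul_left_comm]
      _ = (Ef * y) * (w * w') := by rw [hCeq]
      _ = Ef * w' * (w * y) := by simp only [Nat.mul_comm, Nat.mul_left_comm]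

end Fermat.Agent.S55.H595
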